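import Fermat.Agent.S41.Corr

/-!
# S41: potentials  (owner: helper178)

A *potential* of `ψ : Hom(Γ, A)` on a `G`-set `X` (with respect to `φ : Γ →* G`) is a function
`F : X → A` with `F (φ γ • x) - F x = ψ γ` for all `γ`, `x`.

* `IsCorr.isPotential` : if `F` is a potential of `ψ` then `x ↦ ∑ i, F (α i • x)` is a potential of
  `corrHom ψ` (telescoping);  `IsCorr.isPotential_of_map` : the same when `X` is only a `G'`-set for
  an injective `j : G' →* G` through which everything factors (`G' = GL₂(ℚ)`, `G = GL₂(ℝ)`,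
  `X = OnePoint ℚ`).
* `IsPotential.unique` : a homomorphism is determined by any of its potentials.
* `exists_isPotential` : on `X = G` (left translation) every homomorphism has a potential.
So an identity between operators of the form `corrHom` reduces to an identity between matrices.
-/

set_option autoImplicit false

namespace Fermat.Agent.S41

variable {Γ Γ₁ Γ₂ G G' ι : Type*} [Group Γ] [Group Γ₁] [Group Γ₂] [Group G] [Group G']

section Pot

variable {X : Type*} [MulAction G X] {A : Type*} [AddCommGroup A]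

/-- `F` is a potential of `ψ` on the `G`-set `X`. -/
def IsPotential (φ : Γ →* G) (F : X → A) (ψ : Additive Γ →+ A) : Prop :=
  ∀ (γ : Γ) (x : X), F (φ γ • x) - F x = ψ (Additive.ofMul γ)

/-- The telescoping principle. -/
theorem IsCorr.isPotential [Fintype ι] {φ₁ : Γ₁ →* G} {φ₂ : Γ₂ →* G} {α : ι → G}
    (h : IsCorr φ₁ φ₂ α) {F : X → A} {ψ : Additive Γ₂ →+ A} (hF : IsPotential φ₂ F ψ) :
    IsPotential φ₁ (fun x => ∑ i, F (α i • x)) (h.corrHom ψ) := by
  intro γ x
  show ∑ i, F (α i • φ₁ γ • x) - ∑ i, F (α i • x) = _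
  rw [IsCorr.corrHom_apply, ← Equiv.sum_comp (h.permEquiv γ) (fun i => F (α i • x)),
    ← Finset.sum_sub_distrib]
  refine Finset.sum_congr rfl fun i _ => ?_
  rw [← mul_smul, h.spec γ i, mul_smul, IsCorr.permEquiv_apply, hF]

/-- A homomorphism is determined by any of its potentials. -/
theorem IsPotential.unique [Nonempty X] {φ : Γ →* G} {F : X → A} {ψ ψ' : Additive Γ →+ A}
    (h : IsPotential φ F ψ) (h' : IsPotential φ F ψ') : ψ = ψ' := by
  obtain ⟨x⟩ := ‹Nonempty X›
  refine AddMonoidHom.ext fun γ => ?_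
  obtain ⟨γ, rfl⟩ := Additive.ofMul.surjective γ
  rw [← h γ x, ← h' γ x]

theorem IsPotential.add {φ : Γ →* G} {F F' : X → A} {ψ ψ' : Additive Γ →+ A}
    (h : IsPotential φ F ψ) (h' : IsPotential φ F' ψ') :
    IsPotential φ (fun x => F x + F' x) (ψ + ψ') := by
  intro γ x
  have h1 := h γ x
  have h2 := h' γ x
  simp only [AddMonoidHom.add_apply, ← h1, ← h2]
  abel

theorem IsPotential.neg {φ : Γ →* G} {F : X → A} {ψ : Additive Γ →+ A}
    (h : IsPotential φ F ψ) : IsPotential φ (fun x => - F x) (- ψ) := by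
  intro γ x
  have h1 := h γ x
  simp only [AddMonoidHom.neg_apply, ← h1]
  abel

theorem IsPotential.sub {φ : Γ →* G} {F F' : X → A} {ψ ψ' : Additive Γ →+ A}
    (h : IsPotential φ F ψ) (h' : IsPotential φ F' ψ') :
    IsPotential φ (fun x => F x - F' x) (ψ - ψ') := by
  intro γ x
  have h1 := h γ x
  have h2 := h' γ x
  simp only [AddMonoidHom.sub_apply, ← h1, ← h2]
  abel

theorem IsPotential.zsmul {φ : Γ →* G} {F : X → A} {ψ : Additive Γ →+ A}
    (h : IsPotential φ F ψ) (n : ℤ) : IsPotential φ (fun x => n • F x) (n • ψ) := by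
  intro γ x
  have h1 := h γ x
  simp only [AddMonoidHom.coe_smul, Pi.smul_apply, ← h1, smul_sub]

theorem IsPotential.add_const {φ : Γ →* G} {F : X → A} {ψ : Additive Γ →+ A}
    (h : IsPotential φ F ψ) (c : A) : IsPotential φ (fun x => F x + c) ψ := by
  intro γ x
  show F (φ γ • x) + c - (F x + c) = _
  rw [← h γ x, add_sub_add_right_eq_sub]

theorem IsPotential.congr {φ : Γ →* G} {F F' : X → A} {ψ : Additive Γ →+ A}
    (h : IsPotential φ F ψ) (e : ∀ x, F' x = F x) : IsPotential φ F' ψ := by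
  intro γ x
  rw [e, e, h γ x]

/-- precomposition with a central element. -/
theorem IsPotential.comp_central {φ : Γ →* G} {F : X → A} {ψ : Additive Γ →+ A}
    (h : IsPotential φ F ψ) (z : G) (hz : ∀ g, z * g = g * z) :
    IsPotential φ (fun x => F (z • x)) ψ := by
  intro γ x
  show F (z • φ γ • x) - F (z • x) = _
  rw [← mul_smul, hz, mul_smul, h γ (z • x)]

/-- translation rule. -/
theorem IsPotential.apply_smul {φ : Γ →* G} {F : X → A} {ψ : Additive Γ →+ A}
    (h : IsPotential φ F ψ) (γ : Γ) (x : X) : F (φ γ • x) = F x + ψ (Additive.ofMul γ) := by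
  rw [← h γ x]; abel

/-- naturality in the coefficients. -/
theorem IsPotential.map {B : Type*} [AddCommGroup B] {φ : Γ →* G} {F : X → A}
    {ψ : Additive Γ →+ A} (h : IsPotential φ F ψ) (g : A →+ B) :
    IsPotential φ (fun x => g (F x)) (g.comp ψ) := by
  intro γ x
  show g (F (φ γ • x)) - g (F x) = g (ψ (Additive.ofMul γ))
  rw [← map_sub, h γ x]

/-- a homomorphism with a potential kills the stabilisers. -/
theorem IsPotential.eq_zero_of_fixed {φ : Γ →* G} {F : X → A} {ψ : Additive Γ →+ A}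
    (h : IsPotential φ F ψ) {γ : Γ} {x : X} (e : φ γ • x = x) : ψ (Additive.ofMul γ) = 0 := by
  rw [← h γ x, e, sub_self]

end Pot

/-- The telescoping principle on a `G'`-set, when the correspondence in `G` comes from `G'` through
an injective homomorphism `j : G' →* G`. -/
theorem IsCorr.isPotential_of_map [Fintype ι] {X : Type*} [MulAction G' X] {A : Type*}
    [AddCommGroup A] {φ₁ : Γ₁ →* G} {φ₂ : Γ₂ →* G} {α : ι → G} (h : IsCorr φ₁ φ₂ α)
    (j : G' →* G) (hj : Function.Injective j) {φ₁' : Γ₁ →* G'} {φ₂' : Γ₂ →* G'} {α' : ι → G'}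
    (h₁ : ∀ γ, j (φ₁' γ) = φ₁ γ) (h₂ : ∀ γ, j (φ₂' γ) = φ₂ γ) (hα : ∀ i, j (α' i) = α i)
    {F : X → A} {ψ : Additive Γ₂ →+ A} (hF : IsPotential φ₂' F ψ) :
    IsPotential φ₁' (fun x => ∑ i, F (α' i • x)) (h.corrHom ψ) := by
  intro γ x
  show ∑ i, F (α' i • φ₁' γ • x) - ∑ i, F (α' i • x) = _
  rw [IsCorr.corrHom_apply, ← Equiv.sum_comp (h.permEquiv γ) (fun i => F (α' i • x)),
    ← Finset.sum_sub_distrib]
  refine Finset.sum_congr rfl fun i _ => ?_
  have e : α' i * φ₁' γ = φ₂' (h.coc γ i) * α' (h.perm γ i) := by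
    apply hj
    rw [map_mul, map_mul, hα, hα, h₁, h₂, h.spec γ i]
  rw [← mul_smul, e, mul_smul, IsCorr.permEquiv_apply, hF]

/-- On `X = G` every homomorphism has a potential. -/
theorem exists_isPotential {A : Type*} [AddCommGroup A] (φ : Γ →* G)
    (hφ : Function.Injective φ) (ψ : Additive Γ →+ A) :
    ∃ F : G → A, IsPotential φ F ψ := by
  classical
  -- right cosets of the range
  let s : Setoid G := QuotientGroup.rightRel φ.range
  have hrel : ∀ g : G, ∃ γ : Γ, φ γ * (Quotient.out (Quotient.mk s g)) = g := by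
    intro g
    have h1 : s (Quotient.out (Quotient.mk s g)) g := Quotient.exact (Quotient.out_eq _)
    have h2 := (QuotientGroup.rightRel_apply (s := φ.range)).mp h1
    obtain ⟨γ, hγ⟩ := h2
    exact ⟨γ, by rw [hγ]; group⟩
  refine ⟨fun g => ψ (Additive.ofMul (hrel g).choose), ?_⟩
  intro γ g
  have e1 := (hrel g).choose_spec
  have e2 := (hrel (φ γ • g)).choose_spec
  have hq : Quotient.mk s (φ γ • g) = Quotient.mk s g := by
    apply Quotient.sound
    apply (QuotientGroup.rightRel_apply (s := φ.range)).mpr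
    refine ⟨γ⁻¹, ?_⟩
    rw [map_inv, smul_eq_mul]; group
  have hq' : Quotient.out (Quotient.mk s (φ γ • g)) = Quotient.out (Quotient.mk s g) :=
    congrArg Quotient.out hq
  have e3 : (hrel (φ γ • g)).choose = γ * (hrel g).choose := by
    generalize (hrel (φ γ • g)).choose = a at e2 ⊢
    generalize (hrel g).choose = b at e1 ⊢
    apply hφ
    apply mul_right_cancel (b := Quotient.out (Quotient.mk s g))
    rw [map_mul, mul_assoc, e1, ← hq', e2, smul_eq_mul]
  show ψ (Additive.ofMul (hrel (φ γ • g)).choose) - ψ (Additive.ofMul (hrel g).choose) = _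
  rw [e3, ofMul_mul, map_add]
  abel

end Fermat.Agent.S41
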